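import Mathlib

/-!
# S14 / density block N3, part 1: finite Euler products are bounded by the Dedekind zeta function

For every number field `F` there is a constant `C` such that for every `s ∈ (1, 2]` and every
finite set `T` of nonzero prime ideals of `𝓞 F`
`∏_{𝔔 ∈ T} (1 + N(𝔔)^(-s)) ≤ C / (s - 1)`.

Only input: Mathlib's class number formula `NumberField.tendsto_sub_one_mul_dedekindZeta_nhdsGT`
(simple pole of the Dedekind zeta function at `s = 1`) and unique factorisation of ideals.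
-/

set_option autoImplicit false

open Filter Topology NumberField Ideal Finset Asymptotics

namespace Fermat.Agent.S14.N3H850

variable (F : Type*) [Field F] [NumberField F]

/-- number of integral ideals of norm `n`, as a real number -/
noncomputable def idealCount (n : ℕ) : ℝ :=
  (Nat.card {I : Ideal (𝓞 F) // absNorm I = n} : ℝ)

lemma idealCount_nonneg (n : ℕ) : 0 ≤ idealCount F n := Nat.cast_nonneg _

/-- the real Dirichlet series `∑ a(n) n^(-s)` -/
noncomputable def zetaR (s : ℝ) : ℝ := ∑' n : ℕ, idealCount F n * (n : ℝ) ^ (-s)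

lemma tendsto_sum_idealCount_div :
    Tendsto (fun n : ℕ ↦ (∑ k ∈ Icc 1 n, idealCount F k) / (n : ℝ)) atTop
      (𝓝 (dedekindZeta_residue F)) := by
  refine ((Ideal.tendsto_norm_le_div_atTop₀ F).comp tendsto_natCast_atTop_atTop).congr fun n ↦ ?_
  simp only [Function.comp_apply, Nat.cast_le, idealCount, ← Nat.cast_sum]
  congr
  rw [← add_left_inj 1, ← card_norm_le_eq_card_norm_le_add_one,
    show Finset.Icc 1 n = Finset.Ioc 0 n from Finset.Icc_succ_left_eq_Ioc _ _,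
    show 1 = Nat.card {I : Ideal (𝓞 F) // absNorm I = 0} by simp [Ideal.absNorm_eq_zero_iff],
    Finset.sum_Ioc_add_eq_sum_Icc (n.zero_le),
    ← Finset.card_preimage_eq_sum_card_image_eq (fun k _ ↦ finite_setOfPred_absNorm_eq k)]
  simp [Set.coe_eq_subtype]

lemma lseriesSummable_idealCount {s : ℝ} (hs : 1 < s) :
    LSeriesSummable (fun n ↦ (idealCount F n : ℂ)) (s : ℂ) := by
  refine LSeriesSummable_of_sum_norm_bigO_and_nonneg ?_ (idealCount_nonneg F) zero_le_one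
    (by simpa using hs)
  exact isBigO_atTop_natCast_rpow_of_tendsto_div_rpow (by simpa using tendsto_sum_idealCount_div F)

/-- the real series is summable for `s > 1` -/
lemma summable_idealCount {s : ℝ} (hs : 1 < s) :
    Summable (fun n : ℕ ↦ idealCount F n * (n : ℝ) ^ (-s)) := by
  have h := lseriesSummable_idealCount F hs
  have h2 : Summable (fun n : ℕ ↦ ((idealCount F n * (n : ℝ) ^ (-s) : ℝ) : ℂ)) := by
    refine h.congr fun n ↦ ?_
    rcases eq_or_ne n 0 with rfl | hn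
    · have : (0 : ℝ) ^ (-s) = 0 := Real.zero_rpow (by linarith)
      simp [this]
    · rw [LSeries.term_of_ne_zero hn, Complex.ofReal_mul,
        Complex.ofReal_cpow (Nat.cast_nonneg n), Complex.ofReal_neg, Complex.cpow_neg]
      simp [div_eq_mul_inv]
  exact Complex.summable_ofReal.mp h2

lemma dedekindZeta_eq_zetaR {s : ℝ} (hs : 1 < s) :
    dedekindZeta F (s : ℂ) = ((zetaR F s : ℝ) : ℂ) := by
  rw [dedekindZeta, LSeries, zetaR, Complex.ofReal_tsum]
  refine tsum_congr fun n ↦ ?_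
  rcases eq_or_ne n 0 with rfl | hn
  · have : (0 : ℝ) ^ (-s) = 0 := Real.zero_rpow (by linarith)
    simp [this]
  · rw [LSeries.term_of_ne_zero hn, Complex.ofReal_mul,
      Complex.ofReal_cpow (Nat.cast_nonneg n), Complex.ofReal_neg, Complex.cpow_neg]
    simp [div_eq_mul_inv, idealCount]

lemma card_filter_le_idealCount (J : Finset (Ideal (𝓞 F))) (n : ℕ) :
    ((J.filter fun I ↦ absNorm I = n).card : ℝ) ≤ idealCount F n := by
  classical
  have hfin : {I : Ideal (𝓞 F) | absNorm I = n}.Finite := finite_setOfPred_absNorm_eq n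
  rw [idealCount, Nat.cast_le]
  have h1 : Nat.card {I : Ideal (𝓞 F) // absNorm I = n} = hfin.toFinset.card := by
    rw [← Set.ncard_eq_toFinset_card _ hfin]
    rfl
  rw [h1]
  refine Finset.card_le_card fun I hI ↦ ?_
  simpa using (Finset.mem_filter.mp hI).2

/-- A finite sum of `N(I)^(-s)` is bounded by the zeta series. -/
lemma sum_le_zetaR {s : ℝ} (hs : 1 < s) (J : Finset (Ideal (𝓞 F))) :
    ∑ I ∈ J, (absNorm I : ℝ) ^ (-s) ≤ zetaR F s := by
  classical
  have h1 : ∑ I ∈ J, (absNorm I : ℝ) ^ (-s)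
      = ∑ n ∈ J.image (fun I ↦ absNorm I),
          ((J.filter fun I ↦ absNorm I = n).card : ℝ) * (n : ℝ) ^ (-s) := by
    rw [Finset.sum_comp (fun n : ℕ ↦ (n : ℝ) ^ (-s)) (fun I : Ideal (𝓞 F) ↦ absNorm I)]
    refine Finset.sum_congr rfl fun n _ ↦ ?_
    rw [nsmul_eq_mul]
  rw [h1]
  calc ∑ n ∈ J.image (fun I ↦ absNorm I),
          ((J.filter fun I ↦ absNorm I = n).card : ℝ) * (n : ℝ) ^ (-s)
      ≤ ∑ n ∈ J.image (fun I ↦ absNorm I), idealCount F n * (n : ℝ) ^ (-s) := by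
        refine Finset.sum_le_sum fun n _ ↦ ?_
        exact mul_le_mul_of_nonneg_right (card_filter_le_idealCount F J n)
          (Real.rpow_nonneg (Nat.cast_nonneg n) _)
    _ ≤ zetaR F s := by
        refine (summable_idealCount F hs).sum_le_tsum _ fun n _ ↦ ?_
        exact mul_nonneg (idealCount_nonneg F n) (Real.rpow_nonneg (Nat.cast_nonneg n) _)

lemma zetaR_nonneg (s : ℝ) : 0 ≤ zetaR F s :=
  tsum_nonneg fun n ↦ mul_nonneg (idealCount_nonneg F n) (Real.rpow_nonneg (Nat.cast_nonneg n) _)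

/-- `(s - 1) ζ_F(s)` is bounded near `1⁺`. -/
lemma exists_zetaR_bound_near_one :
    ∃ R : ℝ, 0 < R ∧ ∃ δ : ℝ, 0 < δ ∧ ∀ s : ℝ, 1 < s → s < 1 + δ → (s - 1) * zetaR F s ≤ R := by
  have h := tendsto_sub_one_mul_dedekindZeta_nhdsGT F
  have h2 : ∀ᶠ s : ℝ in 𝓝[>] 1, ‖((s : ℂ) - 1) * dedekindZeta F s‖ < dedekindZeta_residue F + 1 := by
    have h3 := (continuous_norm.tendsto _).comp h
    refine h3.eventually_lt_const ?_
    simp only [Complex.norm_real, Real.norm_eq_abs, abs_of_pos (dedekindZeta_residue_pos F)]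
    linarith
  rw [eventually_nhdsWithin_iff, Metric.eventually_nhds_iff] at h2
  obtain ⟨δ, hδ, hδ2⟩ := h2
  refine ⟨dedekindZeta_residue F + 1, by linarith [dedekindZeta_residue_pos F], δ, hδ,
    fun s hs1 hs2 ↦ ?_⟩
  have h4 := hδ2 (y := s) (by rw [Real.dist_eq, abs_of_pos (by linarith)]; linarith) hs1
  rw [dedekindZeta_eq_zetaR F hs1, ← Complex.ofReal_one, ← Complex.ofReal_sub,
    ← Complex.ofReal_mul, Complex.norm_real, Real.norm_eq_abs] at h4
  exact (le_abs_self _).trans h4.le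

/-- **Uniform bound for finite sums of `N(I)^(-s)`**, `1 < s ≤ 2`. -/
theorem exists_sum_bound :
    ∃ C : ℝ, 0 < C ∧ ∀ s : ℝ, 1 < s → s ≤ 2 → ∀ J : Finset (Ideal (𝓞 F)),
      (∀ I ∈ J, I ≠ ⊥) → ∑ I ∈ J, (absNorm I : ℝ) ^ (-s) ≤ C / (s - 1) := by
  obtain ⟨R, hR, δ, hδ, hb⟩ := exists_zetaR_bound_near_one F
  refine ⟨max R (2 * R / δ), lt_max_of_lt_left hR, fun s hs1 hs2 J hJ ↦ ?_⟩
  have hs0 : 0 < s - 1 := by linarith
  rcases lt_or_ge s (1 + δ) with hlt | hge
  · have h1 := sum_le_zetaR F hs1 J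
    have h2 := hb s hs1 hlt
    calc ∑ I ∈ J, (absNorm I : ℝ) ^ (-s) ≤ zetaR F s := h1
      _ ≤ R / (s - 1) := by rw [le_div_iff₀ hs0]; linarith
      _ ≤ max R (2 * R / δ) / (s - 1) := by gcongr; exact le_max_left _ _
  · set s₀ : ℝ := 1 + δ / 2 with hs₀
    have hs₀1 : 1 < s₀ := by rw [hs₀]; linarith
    have hs₀2 : s₀ < 1 + δ := by rw [hs₀]; linarith
    have h2 := hb s₀ hs₀1 hs₀2
    have h3 : zetaR F s₀ ≤ 2 * R / δ := by
      rw [le_div_iff₀ hδ]
      have : s₀ - 1 = δ / 2 := by rw [hs₀]; ring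
      rw [this] at h2
      linarith
    have h4 : ∑ I ∈ J, (absNorm I : ℝ) ^ (-s) ≤ ∑ I ∈ J, (absNorm I : ℝ) ^ (-s₀) := by
      refine Finset.sum_le_sum fun I hI ↦ ?_
      have hI0 : absNorm I ≠ 0 := by
        rw [Ne, Ideal.absNorm_eq_zero_iff]; exact hJ I hI
      have h1 : (1 : ℝ) ≤ (absNorm I : ℝ) := by
        exact_mod_cast Nat.one_le_iff_ne_zero.mpr hI0
      exact Real.rpow_le_rpow_of_exponent_le h1 (by linarith)
    calc ∑ I ∈ J, (absNorm I : ℝ) ^ (-s) ≤ ∑ I ∈ J, (absNorm I : ℝ) ^ (-s₀) := h4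
      _ ≤ zetaR F s₀ := sum_le_zetaR F hs₀1 J
      _ ≤ 2 * R / δ := h3
      _ ≤ max R (2 * R / δ) := le_max_right _ _
      _ ≤ max R (2 * R / δ) / (s - 1) := by
          rw [le_div_iff₀ hs0]
          have : 0 < max R (2 * R / δ) := lt_max_of_lt_left hR
          nlinarith

/-- A set of nonzero primes is determined by its product. -/
lemma prod_primes_injOn (T : Finset (Ideal (𝓞 F))) (hT : ∀ Q ∈ T, Q.IsPrime ∧ Q ≠ ⊥) :
    Set.InjOn (fun U : Finset (Ideal (𝓞 F)) ↦ ∏ Q ∈ U, Q) (T.powerset : Set (Finset _)) := by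
  classical
  have key : ∀ U : Finset (Ideal (𝓞 F)), U ⊆ T → U = T.filter (fun Q ↦ Q ∣ ∏ Q' ∈ U, Q') := by
    intro U hU
    ext Q
    simp only [Finset.mem_filter]
    constructor
    · intro hQ
      exact ⟨hU hQ, Finset.dvd_prod_of_mem _ hQ⟩
    · rintro ⟨hQT, hdvd⟩
      have hQp : Prime Q := Ideal.prime_of_isPrime (hT Q hQT).2 (hT Q hQT).1
      obtain ⟨Q', hQ'U, hQQ'⟩ := (Prime.dvd_finsetProd_iff hQp _).mp hdvd
      have hle : Q' ≤ Q := Ideal.dvd_iff_le.mp hQQ'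
      have hQ'max : Q'.IsMaximal :=
        Ring.DimensionLEOne.maximalOfPrime (hT Q' (hU hQ'U)).2 (hT Q' (hU hQ'U)).1
      have : Q' = Q := hQ'max.eq_of_le (hT Q hQT).1.ne_top hle
      rwa [← this]
  intro U hU V hV hUV
  simp only [Finset.coe_powerset, Set.mem_preimage, Set.mem_powerset_iff, Finset.coe_subset] at hU hV
  simp only at hUV
  rw [key U hU, key V hV, hUV]

/-- **Finite Euler products are `O(1/(s-1))`**, uniformly in the finite set of primes. -/
theorem exists_prod_bound :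
    ∃ C : ℝ, 0 < C ∧ ∀ s : ℝ, 1 < s → s ≤ 2 → ∀ T : Finset (Ideal (𝓞 F)),
      (∀ Q ∈ T, Q.IsPrime ∧ Q ≠ ⊥) →
        ∏ Q ∈ T, (1 + (absNorm Q : ℝ) ^ (-s)) ≤ C / (s - 1) := by
  classical
  obtain ⟨C, hC, hb⟩ := exists_sum_bound F
  refine ⟨C, hC, fun s hs1 hs2 T hT ↦ ?_⟩
  rw [Finset.prod_one_add]
  have h1 : ∀ U ∈ T.powerset, ∏ Q ∈ U, (absNorm Q : ℝ) ^ (-s)
      = (absNorm (∏ Q ∈ U, Q) : ℝ) ^ (-s) := by
    intro U _
    rw [map_prod, Nat.cast_prod, Real.finsetProd_rpow _ _ (fun Q _ ↦ Nat.cast_nonneg _)]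
  rw [Finset.sum_congr rfl h1]
  rw [← Finset.sum_image (f := fun I : Ideal (𝓞 F) ↦ (absNorm I : ℝ) ^ (-s))
    (g := fun U : Finset (Ideal (𝓞 F)) ↦ ∏ Q ∈ U, Q) (prod_primes_injOn F T hT)]
  refine hb s hs1 hs2 _ fun I hI ↦ ?_
  obtain ⟨U, hU, rfl⟩ := Finset.mem_image.mp hI
  rw [Finset.mem_powerset] at hU
  rw [← Ideal.zero_eq_bot, Finset.prod_ne_zero_iff]
  intro Q hQ
  exact (hT Q (hU hQ)).2

end Fermat.Agent.S14.N3H850
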