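import Mathlib

/-!
# S14 / density block N3, part 2: splitting of primes in a Kummer extension

Abstract form: `M / K` number fields of degree `p`, `σ ∈ Aut(M/K)`, `β ∈ 𝓞 M` with
`β ^ p = η ∈ 𝓞 K` and `σ β = ζ β` for a primitive `p`-th root of unity `ζ ∈ 𝓞 K`.
If `𝔮` is a maximal ideal of `𝓞 K` with `p, η ∉ 𝔮` and `η ≡ c ^ p mod 𝔮`, then there are
`p` distinct primes of `𝓞 M` above `𝔮`, each of absolute norm `N(𝔮)`.
-/

set_option autoImplicit false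

open NumberField Ideal Polynomial

namespace Fermat.Agent.S14.N3H850

section Split

variable {K M : Type*} [Field K] [NumberField K] [Field M] [NumberField M] [Algebra K M]

/-- The restriction of `σ` to the rings of integers. -/
noncomputable def intAut (σ : M ≃ₐ[K] M) : 𝓞 M ≃ₐ[𝓞 K] 𝓞 M :=
  galRestrict (𝓞 K) K M (𝓞 M) σ

lemma coe_intAut (σ : M ≃ₐ[K] M) (x : 𝓞 M) : ((intAut σ x : 𝓞 M) : M) = σ (x : M) :=
  algebraMap_galRestrict_apply (𝓞 K) σ x

lemma intAut_pow_apply {σ : M ≃ₐ[K] M} {β : 𝓞 M} {ζ : 𝓞 K}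
    (hσ : σ (β : M) = algebraMap K M (ζ : K) * (β : M)) (j : ℕ) :
    ((intAut σ) ^ j) β = algebraMap (𝓞 K) (𝓞 M) ζ ^ j * β := by
  induction j with
  | zero => simp
  | succ j ih =>
    rw [pow_succ', AlgEquiv.mul_apply, ih, map_mul, map_pow, AlgEquiv.commutes]
    have h1 : intAut σ β = algebraMap (𝓞 K) (𝓞 M) ζ * β := by
      apply RingOfIntegers.ext
      rw [coe_intAut, hσ]
      rfl
    rw [h1]
    ring

/-- In a quotient by a prime ideal not containing `p`, a primitive `p`-th root of unity stays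
primitive; in particular `ζ ^ i - ζ ^ j ∈ 𝔮` forces `i = j`. -/
lemma eq_of_pow_sub_pow_mem {A : Type*} [CommRing A] [IsDomain A] {p : ℕ} (hp : p.Prime)
    {ζ : A} (hζ : IsPrimitiveRoot ζ p) (q : Ideal A) [hq : q.IsPrime] (hpq : (p : A) ∉ q)
    {i j : ℕ} (hi : i < p) (hj : j < p) (h : ζ ^ i - ζ ^ j ∈ q) : i = j := by
  have hne : NeZero ((p : ℕ) : A ⧸ q) := by
    refine ⟨fun h0 ↦ hpq ?_⟩
    rw [← Ideal.Quotient.eq_zero_iff_mem]
    simpa using h0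
  have hroot : (cyclotomic p (A ⧸ q)).IsRoot (Ideal.Quotient.mk q ζ) := by
    have h1 : (cyclotomic p A).IsRoot ζ := hζ.isRoot_cyclotomic hp.pos
    have h2 := h1.map (f := Ideal.Quotient.mk q)
    rwa [map_cyclotomic] at h2
  have hprim : IsPrimitiveRoot (Ideal.Quotient.mk q ζ) p := isRoot_cyclotomic_iff.mp hroot
  refine hprim.pow_inj hi hj ?_
  rw [← map_pow, ← map_pow, ← sub_eq_zero, ← map_sub, Ideal.Quotient.eq_zero_iff_mem]
  exact h

theorem exists_primes_over {p : ℕ} (hp : p.Prime)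
    (σ : M ≃ₐ[K] M) (β : 𝓞 M) (ζ η c : 𝓞 K)
    (hζ : IsPrimitiveRoot ζ p)
    (hσ : σ (β : M) = algebraMap K M (ζ : K) * (β : M))
    (hβ : β ^ p = algebraMap (𝓞 K) (𝓞 M) η)
    (hdeg : Module.finrank K M = p)
    (q : Ideal (𝓞 K)) [hqm : q.IsMaximal]
    (hpq : (p : 𝓞 K) ∉ q) (hηq : η ∉ q) (hc : c ^ p - η ∈ q) :
    ∃ S : Finset (Ideal (𝓞 M)), S.card = p ∧
      ∀ Q ∈ S, Q.IsPrime ∧ Q ≠ ⊥ ∧ Q.comap (algebraMap (𝓞 K) (𝓞 M)) = q ∧
        absNorm Q = absNorm q := by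
  classical
  have : NeZero p := ⟨hp.ne_zero⟩
  set f := algebraMap (𝓞 K) (𝓞 M) with hf
  have hfinj : Function.Injective f := FaithfulSMul.algebraMap_injective _ _
  have hq0 : q ≠ ⊥ := Ring.ne_bot_of_isMaximal_of_not_isField hqm (RingOfIntegers.not_isField K)
  have hqp : q.IsPrime := hqm.isPrime
  -- a prime over `q`
  obtain ⟨Q₀, hQ₀max, hQ₀over⟩ := exists_ideal_over_maximal_of_isIntegral (S := 𝓞 M) q
    (by rw [(RingHom.injective_iff_ker_eq_bot _).mp hfinj]; exact bot_le)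
  have hQ₀p : Q₀.IsPrime := hQ₀max.isPrime
  have hmemQ₀ : ∀ x : 𝓞 K, f x ∈ Q₀ ↔ x ∈ q := fun x ↦ by
    rw [← hQ₀over, Ideal.mem_comap]
  have hcq : c ∉ q := fun hcq ↦ hηq (by
    have := q.sub_mem (q.pow_mem_of_mem hcq p hp.pos) hc
    simpa using this)
  -- factorisation
  have hζB : IsPrimitiveRoot (f ζ) p := hζ.map_of_injective hfinj
  have h1 : β ^ p - (f c) ^ p ∈ Q₀ := by
    have h2 : β ^ p - (f c) ^ p = f (-(c ^ p - η)) := by
      rw [hβ]; simp [map_sub, map_pow]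
    rw [h2, hmemQ₀]
    exact q.neg_mem hc
  rw [hζB.pow_sub_pow_eq_prod_sub_mul _ _ hp.pos] at h1
  obtain ⟨ξ, hξmem, hξ⟩ := (hQ₀p.prod_mem_iff).mp h1
  rw [mem_nthRootsFinset hp.pos] at hξmem
  obtain ⟨k, -, rfl⟩ := hζB.eq_pow_of_pow_eq_one hξmem
  -- the conjugates
  set τ := intAut σ with hτ
  set u : 𝓞 K := ζ ^ k * c with hu
  have hfu : (f ζ) ^ k * f c = f u := by rw [hu, map_mul, map_pow]
  rw [hfu] at hξ
  have huq : u ∉ q := by
    intro h
    rcases hqp.mem_or_mem h with h | h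
    · have h3 : (ζ ^ k) ^ p ∈ q := q.pow_mem_of_mem h p hp.pos
      rw [← pow_mul, mul_comm, pow_mul, hζ.pow_eq_one, one_pow] at h3
      exact hqp.ne_top ((Ideal.eq_top_iff_one _).mpr h3)
    · exact hcq h
  let Qj : ℕ → Ideal (𝓞 M) := fun j ↦ Q₀.comap ((τ ^ j : 𝓞 M ≃ₐ[𝓞 K] 𝓞 M) : 𝓞 M →+* 𝓞 M)
  have hQj_mem : ∀ j, β - f (ζ ^ j * u) ∈ Qj j := by
    intro j
    change ((τ ^ j : 𝓞 M ≃ₐ[𝓞 K] 𝓞 M) : 𝓞 M →+* 𝓞 M) (β - f (ζ ^ j * u)) ∈ Q₀
    have h3 : ((τ ^ j : 𝓞 M ≃ₐ[𝓞 K] 𝓞 M) : 𝓞 M →+* 𝓞 M) (β - f (ζ ^ j * u))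
        = f ζ ^ j * (β - f u) := by
      rw [map_sub]
      change (τ ^ j) β - (τ ^ j) (f (ζ ^ j * u)) = _
      rw [intAut_pow_apply hσ, AlgEquiv.commutes, map_mul, map_pow]
      ring
    rw [h3]
    exact Q₀.mul_mem_left _ hξ
  have hQj_over : ∀ j, (Qj j).comap f = q := by
    intro j
    rw [← hQ₀over]
    change Ideal.comap f (Ideal.comap _ Q₀) = _
    rw [Ideal.comap_comap]
    congr 1
    ext x
    exact congrArg _ (AlgEquiv.commutes (τ ^ j) x)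
  have hQj_prime : ∀ j, (Qj j).IsPrime := fun j ↦ Ideal.comap_isPrime _ _
  have hQj_ne : ∀ j, Qj j ≠ ⊥ := by
    intro j h
    apply hq0
    rw [← hQj_over j, h]
    exact (RingHom.injective_iff_ker_eq_bot _).mp hfinj
  have hQj_inj : Set.InjOn Qj (Finset.range p : Set ℕ) := by
    intro i hi j hj hij
    simp only [Finset.coe_range, Set.mem_Iio] at hi hj
    have h3 : f ((ζ ^ i - ζ ^ j) * u) ∈ Qj j := by
      have h4 := (Qj j).sub_mem (hQj_mem j) (hij ▸ hQj_mem i)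
      have h5 : β - f (ζ ^ j * u) - (β - f (ζ ^ i * u)) = f ((ζ ^ i - ζ ^ j) * u) := by
        simp only [map_mul, map_sub, map_pow]; ring
      rwa [h5] at h4
    have h6 : (ζ ^ i - ζ ^ j) * u ∈ q := by
      rw [← hQj_over j]; exact h3
    rcases hqp.mem_or_mem h6 with h | h
    · exact eq_of_pow_sub_pow_mem hp hζ q hpq hi hj h
    · exact absurd h huq
  -- the finite set
  refine ⟨(Finset.range p).image Qj, ?_, ?_⟩
  · rw [Finset.card_image_of_injOn hQj_inj, Finset.card_range]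
  -- norms
  have hfin : (q.primesOver (𝓞 M)).Finite := IsDedekindDomain.primesOver_finite q (𝓞 M)
  let _ : Fintype (q.primesOver (𝓞 M)) := hfin.fintype
  have hsum := Ideal.sum_ramification_inertia_eq_finrank q (𝓞 M)
  have hrank : Module.finrank (𝓞 K) (𝓞 M) = p := by
    rw [← IsFractionRing.finrank_eq (𝓞 K) K (𝓞 M) M, hdeg]
  rw [hrank] at hsum
  set F : Ideal (𝓞 M) → ℕ := fun Q ↦ Q.ramificationIdx (𝓞 K) * Q.inertiaDeg (𝓞 K) with hF
  have hsum2 : ∑ Q ∈ (q.primesOver (𝓞 M)).toFinset, F Q = p := by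
    rw [← hsum, ← Finset.sum_set_coe]
  have hsub : (Finset.range p).image Qj ⊆ (q.primesOver (𝓞 M)).toFinset := by
    intro Q hQ
    obtain ⟨j, -, rfl⟩ := Finset.mem_image.mp hQ
    rw [Set.mem_toFinset]
    exact ⟨hQj_prime j, ⟨(hQj_over j).symm⟩⟩
  have hFpos : ∀ Q ∈ (Finset.range p).image Qj, 1 ≤ F Q := by
    intro Q hQ
    obtain ⟨j, -, rfl⟩ := Finset.mem_image.mp hQ
    have := hQj_prime j
    exact Nat.one_le_iff_ne_zero.mpr (Nat.mul_ne_zero (Ideal.ramificationIdx_pos _ _).ne'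
      (Ideal.inertiaDeg_pos _ _).ne')
  have hle : ∑ Q ∈ (Finset.range p).image Qj, F Q ≤ p :=
    (Finset.sum_le_sum_of_subset hsub).trans hsum2.le
  intro Q hQ
  obtain ⟨j, hj, rfl⟩ := Finset.mem_image.mp hQ
  refine ⟨hQj_prime j, hQj_ne j, hQj_over j, ?_⟩
  have := hQj_prime j
  have : (Qj j).LiesOver q := ⟨(hQj_over j).symm⟩
  have hF1 : F (Qj j) ≤ 1 := by
    have h7 : ∑ Q ∈ ((Finset.range p).image Qj).erase (Qj j), F Q + F (Qj j)
        = ∑ Q ∈ (Finset.range p).image Qj, F Q :=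
      Finset.sum_erase_add _ _ hQ
    have h8 : (((Finset.range p).image Qj).erase (Qj j)).card = p - 1 := by
      rw [Finset.card_erase_of_mem hQ, Finset.card_image_of_injOn hQj_inj, Finset.card_range]
    have h9 : p - 1 ≤ ∑ Q ∈ ((Finset.range p).image Qj).erase (Qj j), F Q := by
      rw [← h8, Finset.card_eq_sum_ones]
      exact Finset.sum_le_sum fun Q hQ' ↦ hFpos Q (Finset.mem_of_mem_erase hQ')
    have := hp.pos
    omega
  have hf1 : (Qj j).inertiaDeg (𝓞 K) = 1 := by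
    have h10 : 0 < (Qj j).inertiaDeg (𝓞 K) := Ideal.inertiaDeg_pos _ _
    have h11 : 0 < (Qj j).ramificationIdx (𝓞 K) := Ideal.ramificationIdx_pos _ _
    have h12 : (Qj j).ramificationIdx (𝓞 K) * (Qj j).inertiaDeg (𝓞 K) ≤ 1 := hF1
    nlinarith
  rw [← Ideal.absNorm_pow_inertiaDeg q (Qj j), hf1, pow_one]

end Split

end Fermat.Agent.S14.N3H850
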