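import Fermat.Agent.S14.N3H850.ZetaBound
import Fermat.Agent.S14.N3H850.Split

/-!
# S14 / density block N3: primes at which `η` is a `p`-th power residue have density `≤ 1/p`

`K` a number field containing a primitive `p`-th root of unity `ζ`, `η ∈ 𝓞 K` not a `p`-th power
in `K`.  Then there is `C` such that for all `s ∈ (1, 2]` and all finite sets `T` of nonzero primes
`𝔮 ∌ p, η` of `𝓞 K` modulo which `η` is a `p`-th power:

`∏_{𝔮 ∈ T} (1 + N(𝔮)^(-s)) ^ p ≤ C / (s - 1)`.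

Proof: every such `𝔮` has `p` primes of norm `N(𝔮)` above it in `M = K[X]/(X^p - η)`
(`exists_primes_over`), and finite Euler products of `M` are bounded by `C / (s - 1)`
(`exists_prod_bound`, from the simple pole of the Dedekind zeta function of `M`).
-/

set_option autoImplicit false

open NumberField Ideal Polynomial

namespace Fermat.Agent.S14.N3H850

section Kummer

variable (K : Type*) [Field K] [NumberField K]

/-- Abstract version: `M / K` of degree `p` with the Kummer data. -/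
theorem density_bound_of_kummer {M : Type*} [Field M] [NumberField M] [Algebra K M]
    {p : ℕ} (hp : p.Prime)
    (σ : M ≃ₐ[K] M) (β : 𝓞 M) (ζ η : 𝓞 K)
    (hζ : IsPrimitiveRoot ζ p)
    (hσ : σ (β : M) = algebraMap K M (ζ : K) * (β : M))
    (hβ : β ^ p = algebraMap (𝓞 K) (𝓞 M) η)
    (hdeg : Module.finrank K M = p) :
    ∃ C : ℝ, 0 < C ∧ ∀ s : ℝ, 1 < s → s ≤ 2 → ∀ T : Finset (Ideal (𝓞 K)),
      (∀ Q ∈ T, Q.IsPrime ∧ Q ≠ ⊥ ∧ (p : 𝓞 K) ∉ Q ∧ η ∉ Q ∧ ∃ c : 𝓞 K, c ^ p - η ∈ Q) →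
        ∏ Q ∈ T, (1 + (absNorm Q : ℝ) ^ (-s)) ^ p ≤ C / (s - 1) := by
  classical
  obtain ⟨C, hC, hb⟩ := exists_prod_bound M
  refine ⟨C, hC, fun s hs1 hs2 T hT ↦ ?_⟩
  have hex : ∀ Q : Ideal (𝓞 K), ∃ S : Finset (Ideal (𝓞 M)), Q ∈ T → (S.card = p ∧
      ∀ Q' ∈ S, Q'.IsPrime ∧ Q' ≠ ⊥ ∧ Q'.comap (algebraMap (𝓞 K) (𝓞 M)) = Q ∧
        absNorm Q' = absNorm Q) := by
    intro Q
    by_cases hQ : Q ∈ T
    · obtain ⟨hQp, hQ0, hpQ, hηQ, c, hc⟩ := hT Q hQ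
      have hQm : Q.IsMaximal := Ring.DimensionLEOne.maximalOfPrime hQ0 hQp
      obtain ⟨S, hS⟩ := exists_primes_over hp σ β ζ η c hζ hσ hβ hdeg Q hpQ hηQ hc
      exact ⟨S, fun _ ↦ hS⟩
    · exact ⟨∅, fun h ↦ absurd h hQ⟩
  choose S hS using hex
  have hdisj : (T : Set (Ideal (𝓞 K))).PairwiseDisjoint S := by
    intro Q hQ Q' hQ' hne
    rw [Function.onFun, Finset.disjoint_left]
    intro P hP hP'
    exact hne (((hS Q hQ).2 P hP).2.2.1.symm.trans ((hS Q' hQ').2 P hP').2.2.1)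
  have h1 : ∏ Q ∈ T, (1 + (absNorm Q : ℝ) ^ (-s)) ^ p
      = ∏ P ∈ T.biUnion S, (1 + (absNorm P : ℝ) ^ (-s)) := by
    rw [Finset.prod_biUnion hdisj]
    refine Finset.prod_congr rfl fun Q hQ ↦ ?_
    rw [Finset.prod_congr rfl (fun P hP ↦ by rw [((hS Q hQ).2 P hP).2.2.2]),
      Finset.prod_const, (hS Q hQ).1]
  rw [h1]
  refine hb s hs1 hs2 _ fun P hP ↦ ?_
  obtain ⟨Q, hQ, hPQ⟩ := Finset.mem_biUnion.mp hP
  exact ⟨((hS Q hQ).2 P hPQ).1, ((hS Q hQ).2 P hPQ).2.1⟩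

/-- **N3 (Kummer density bound).**  `K ∋ ζ_p`, `η ∈ 𝓞 K` not a `p`-th power in `K`: the primes
`𝔮 ∌ p, η` modulo which `η` is a `p`-th power satisfy
`∏_{𝔮 ∈ T} (1 + N(𝔮)^(-s)) ^ p ≤ C / (s - 1)` uniformly in finite `T` and `s ∈ (1, 2]`. -/
theorem kummer_density_bound {p : ℕ} (hp : p.Prime) (ζ η : 𝓞 K) (hζ : IsPrimitiveRoot ζ p)
    (hη : ∀ b : K, b ^ p ≠ (η : K)) :
    ∃ C : ℝ, 0 < C ∧ ∀ s : ℝ, 1 < s → s ≤ 2 → ∀ T : Finset (Ideal (𝓞 K)),
      (∀ Q ∈ T, Q.IsPrime ∧ Q ≠ ⊥ ∧ (p : 𝓞 K) ∉ Q ∧ η ∉ Q ∧ ∃ c : 𝓞 K, c ^ p - η ∈ Q) →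
        ∏ Q ∈ T, (1 + (absNorm Q : ℝ) ^ (-s)) ^ p ≤ C / (s - 1) := by
  have hirr : Irreducible (X ^ p - C (η : K)) := X_pow_sub_C_irreducible_of_prime hp hη
  have := Fact.mk hirr
  have hne : X ^ p - C (η : K) ≠ 0 := hirr.ne_zero
  have hfin : Module.Finite K (AdjoinRoot (X ^ p - C (η : K))) :=
    (AdjoinRoot.powerBasis hne).finite
  have hnf : NumberField (AdjoinRoot (X ^ p - C (η : K))) := NumberField.of_module_finite K _
  have hdeg : Module.finrank K (AdjoinRoot (X ^ p - C (η : K))) = p := by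
    rw [(AdjoinRoot.powerBasis hne).finrank, AdjoinRoot.powerBasis_dim,
      natDegree_X_pow_sub_C]
  -- the root as an algebraic integer
  have hβint : IsIntegral ℤ (AdjoinRoot.root (X ^ p - C (η : K))) := by
    have h1 : IsIntegral ℤ (AdjoinRoot.of (X ^ p - C (η : K)) (η : K)) := by
      rw [← AdjoinRoot.algebraMap_eq]
      exact (RingOfIntegers.isIntegral_coe η).algebraMap
    rw [← root_X_pow_sub_C_pow] at h1
    exact IsIntegral.of_pow hp.pos h1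
  let β : 𝓞 (AdjoinRoot (X ^ p - C (η : K))) := ⟨_, hβint⟩
  have hζ' : IsPrimitiveRoot (ζ : K) p := hζ.map_of_injective RingOfIntegers.coe_injective
  let ζu : Kˣ := (hζ'.isUnit hp.ne_zero).unit
  have hζu : ζu ∈ rootsOfUnity p K := by
    rw [mem_rootsOfUnity]
    ext
    simp [ζu, hζ'.pow_eq_one]
  let σ := autAdjoinRootXPowSubC p (η : K) ⟨ζu, hζu⟩
  have hσ : σ (β : AdjoinRoot (X ^ p - C (η : K)))
      = algebraMap K _ (ζ : K) * (β : AdjoinRoot (X ^ p - C (η : K))) := by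
    have h1 := autAdjoinRootXPowSubC_root (η : K) (⟨ζu, hζu⟩ : rootsOfUnity p K)
    rw [Algebra.smul_def] at h1
    exact h1
  have hβ : β ^ p = algebraMap (𝓞 K) (𝓞 (AdjoinRoot (X ^ p - C (η : K)))) η := by
    apply RingOfIntegers.ext
    have h2 : ((β ^ p : 𝓞 (AdjoinRoot (X ^ p - C (η : K)))) : AdjoinRoot (X ^ p - C (η : K)))
        = (AdjoinRoot.root (X ^ p - C (η : K))) ^ p :=
      map_pow (algebraMap (𝓞 (AdjoinRoot (X ^ p - C (η : K)))) (AdjoinRoot (X ^ p - C (η : K))))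
        β p
    rw [h2, root_X_pow_sub_C_pow]
    rfl
  exact density_bound_of_kummer K hp σ β ζ η hζ hσ hβ hdeg

end Kummer

end Fermat.Agent.S14.N3H850
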